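import Mathlib

set_option autoImplicit false

namespace Fermat.Agent.Lib.Kummer

section Linear

variable {F W V : Type*} [Field F] [AddCommGroup W] [Module F W] [AddCommGroup V] [Module F V]

theorem ker_eq_bot_of_span_of_indep (φ : W →ₗ[F] V)
    {ι κ : Type*} [Fintype ι] [Fintype κ] (g : ι → W)
    (hspan : Submodule.span F (Set.range g) = ⊤) (e : κ → W)
    (hcard : Fintype.card ι ≤ Fintype.card κ)
    (hliV : LinearIndependent F (fun i => φ (e i))) :
    ∀ w : W, φ w = 0 → w = 0 := by
  classical
  have hfin : Module.Finite F W :=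
    ⟨⟨(Finset.univ.image g), by simpa using hspan⟩⟩
  have hrank : Module.finrank F W ≤ Fintype.card ι := by
    have h1 := finrank_range_le_card (R := F) g
    rw [Set.finrank, hspan, finrank_top] at h1
    exact h1
  have hliW : LinearIndependent F e := LinearIndependent.of_comp φ hliV
  have hcard2 : Fintype.card κ = Module.finrank F W :=
    le_antisymm hliW.fintype_card_le_finrank (hrank.trans hcard)
  intro w hw
  by_cases hκ : Nonempty κ
  · have hsp := hliW.span_eq_top_of_card_eq_finrank hcard2
    have hmem : w ∈ Submodule.span F (Set.range e) := hsp ▸ Submodule.mem_top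
    obtain ⟨c, hc⟩ := (Submodule.mem_span_range_iff_exists_fun F).1 hmem
    have h3 : ∑ i, c i • φ (e i) = 0 := by
      have := congrArg φ hc
      rw [map_sum] at this
      simp only [map_smul] at this
      rw [this, hw]
    have h4 := Fintype.linearIndependent_iff.1 hliV c h3
    rw [← hc]
    simp [h4]
  · have h0 : Module.finrank F W = 0 := by
      rw [← hcard2]
      rw [not_nonempty_iff] at hκ
      exact Fintype.card_eq_zero
    have := Module.finrank_zero_iff.1 h0
    exact Subsingleton.elim _ _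

end Linear

section Abstract

variable {A : Type*} [AddCommGroup A] (p : ℕ) [Fact p.Prime]

/-- The `ZMod p`-module structure on a quotient killed by `p`. -/
@[reducible] def quotModule (H : AddSubgroup A) (hH : ∀ x : A, p • x ∈ H) :
    Module (ZMod p) (A ⧸ H) :=
  AddCommGroup.zmodModule (n := p) (by
    intro x
    induction x using QuotientAddGroup.induction_on with
    | H a =>
      rw [← QuotientAddGroup.mk_nsmul, QuotientAddGroup.eq_zero_iff]
      exact hH a)

theorem add_mem_of_indep (P H : AddSubgroup A) (hP : ∀ x : A, p • x ∈ P) (hPH : P ≤ H)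
    {ι κ : Type*} [Fintype ι] [Fintype κ] (g : ι → A)
    (hg : AddSubgroup.closure (Set.range g) = ⊤) (e : κ → A)
    (hcard : Fintype.card ι ≤ Fintype.card κ)
    (he : ∀ n : κ → ℕ, ∑ i, n i • e i ∈ H → ∀ i, p ∣ n i) :
    ∀ u ∈ H, u ∈ P := by
  classical
  obtain ⟨mW⟩ : Nonempty (Module (ZMod p) (A ⧸ P)) := ⟨quotModule p P hP⟩
  obtain ⟨mV⟩ : Nonempty (Module (ZMod p) (A ⧸ H)) := ⟨quotModule p H (fun x => hPH (hP x))⟩
  let φ₀ : A ⧸ P →+ A ⧸ H := QuotientAddGroup.map P H (AddMonoidHom.id A) hPH
  -- spanning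
  have hspan : Submodule.span (ZMod p) (Set.range fun i => (QuotientAddGroup.mk (g i) : A ⧸ P)) =
      (⊤ : Submodule (ZMod p) (A ⧸ P)) := by
    rw [eq_top_iff]
    rintro x -
    induction x using QuotientAddGroup.induction_on with
    | H a =>
      have ha : a ∈ AddSubgroup.closure (Set.range g) := hg ▸ AddSubgroup.mem_top a
      induction ha using AddSubgroup.closure_induction with
      | mem x hx =>
        obtain ⟨i, rfl⟩ := hx
        exact Submodule.subset_span ⟨i, rfl⟩
      | zero => exact Submodule.zero_mem _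
      | add x y _ _ hx hy => exact Submodule.add_mem _ hx hy
      | neg x _ hx => exact Submodule.neg_mem _ hx
  -- independence in V
  have hsmul : ∀ (c : ZMod p) (x : A ⧸ H), c • x = c.val • x := by
    intro c x
    conv_lhs => rw [← ZMod.natCast_zmod_val c]
    exact Nat.cast_smul_eq_nsmul (ZMod p) c.val x
  have hliV : LinearIndependent (ZMod p) (fun i => (QuotientAddGroup.mk (e i) : A ⧸ H)) := by
    rw [Fintype.linearIndependent_iff]
    intro c hc i
    have h1 : ((∑ i, (c i).val • e i : A) : A ⧸ H) = 0 := by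
      rw [← hc]
      simp only [hsmul]
      rw [QuotientAddGroup.mk_sum]
      rfl
    rw [QuotientAddGroup.eq_zero_iff] at h1
    have h2 := he (fun i => (c i).val) h1 i
    rw [← ZMod.natCast_zmod_val (c i)]
    exact (ZMod.natCast_eq_zero_iff _ _).2 h2
  intro u hu
  have hu0 : (QuotientAddGroup.mk u : A ⧸ P) = 0 :=
    ker_eq_bot_of_span_of_indep (AddMonoidHom.toZModLinearMap p φ₀) _ hspan
      (fun i => (QuotientAddGroup.mk (e i) : A ⧸ P)) hcard hliV _
      ((QuotientAddGroup.eq_zero_iff u).2 hu)
  rwa [QuotientAddGroup.eq_zero_iff] at hu0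

/-- Additive version: `A` generated by `card ι` elements, `H` a subgroup containing `pA`,
`κ`-family independent modulo `H` with `card ι ≤ card κ`. Then `H = pA`. -/
theorem add_mem_smul_of_indep (H : AddSubgroup A) (hH : ∀ x : A, p • x ∈ H)
    {ι κ : Type*} [Fintype ι] [Fintype κ] (g : ι → A)
    (hg : AddSubgroup.closure (Set.range g) = ⊤) (e : κ → A)
    (hcard : Fintype.card ι ≤ Fintype.card κ)
    (he : ∀ n : κ → ℕ, ∑ i, n i • e i ∈ H → ∀ i, p ∣ n i) :
    ∀ u ∈ H, ∃ v : A, u = p • v := by
  intro u hu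
  have := add_mem_of_indep p (nsmulAddMonoidHom (α := A) p).range H (fun x => ⟨x, rfl⟩)
    (by rintro _ ⟨x, rfl⟩; exact hH x) g hg e hcard he u hu
  obtain ⟨v, hv⟩ := this
  exact ⟨v, hv.symm⟩

end Abstract

/-- Multiplicative version. -/
theorem mem_pow_of_indep {E : Type*} [CommGroup E] (p : ℕ) [Fact p.Prime]
    (H : Subgroup E) (hH : ∀ x : E, x ^ p ∈ H)
    {ι κ : Type*} [Fintype ι] [Fintype κ] (g : ι → E)
    (hg : Subgroup.closure (Set.range g) = ⊤) (e : κ → E)
    (hcard : Fintype.card ι ≤ Fintype.card κ)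
    (he : ∀ n : κ → ℕ, ∏ i, e i ^ n i ∈ H → ∀ i, p ∣ n i) :
    ∀ u ∈ H, ∃ v : E, u = v ^ p := by
  intro u hu
  have := add_mem_smul_of_indep (A := Additive E) p (Subgroup.toAddSubgroup H)
    (fun x => hH (Additive.toMul x)) (fun i => Additive.ofMul (g i))
    (by
      have h1 : (Set.range fun i => Additive.ofMul (g i)) = Additive.toMul ⁻¹' (Set.range g) := by
        ext x
        constructor
        · rintro ⟨i, rfl⟩; exact ⟨i, rfl⟩
        · rintro ⟨i, hi⟩; exact ⟨i, congrArg Additive.ofMul hi⟩
      rw [h1, ← Subgroup.toAddSubgroup_closure, hg]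
      rfl)
    (fun i => Additive.ofMul (e i)) hcard
    (fun n hn => he n (by
      have : (∑ i, n i • Additive.ofMul (e i)) = Additive.ofMul (∏ i, e i ^ n i) := by
        rw [ofMul_prod]
        rfl
      rw [this] at hn
      exact hn))
    (Additive.ofMul u) hu
  obtain ⟨v, hv⟩ := this
  exact ⟨Additive.toMul v, hv⟩

end Fermat.Agent.Lib.Kummer
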