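import Mathlib

set_option autoImplicit false

open NumberField

namespace Fermat.Agent.Lib.Kummer

theorem exists_units_generators (K : Type*) [Field K] [NumberField K] :
    ∃ g : Option (Fin (Units.rank K)) → (𝓞 K)ˣ, Subgroup.closure (Set.range g) = ⊤ := by
  obtain ⟨t, ht⟩ := IsCyclic.exists_generator (α := Units.torsion K)
  refine ⟨fun o => o.elim (t : (𝓞 K)ˣ) (Units.fundSystem K), ?_⟩
  rw [eq_top_iff]
  rintro x -
  obtain ⟨⟨z, e⟩, hx, -⟩ := Units.exist_unique_eq_mul_prod K x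
  rw [hx]
  refine Subgroup.mul_mem _ ?_ (Subgroup.prod_mem _ fun i _ => Subgroup.zpow_mem _ ?_ _)
  · obtain ⟨k, hk⟩ := Subgroup.mem_zpowers_iff.1 (ht z)
    have : ((z : Units.torsion K) : (𝓞 K)ˣ) = (t : (𝓞 K)ˣ) ^ k := by
      rw [← hk]; simp
    simp only [this]
    exact Subgroup.zpow_mem _ (Subgroup.subset_closure (Set.mem_range.2 ⟨none, rfl⟩)) _
  · exact Subgroup.subset_closure (Set.mem_range.2 ⟨some i, rfl⟩)

theorem rank_succ_cyclotomic (p : ℕ) [hp : Fact p.Prime] (hp2 : 2 < p) (K : Type*) [Field K] [NumberField K]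
    [IsCyclotomicExtension {p} ℚ K] : Units.rank K + 1 = (p - 1) / 2 := by
  have h1 := IsCyclotomicExtension.Rat.nrComplexPlaces_eq_totient_div_two p K
  have h2 := IsCyclotomicExtension.Rat.nrRealPlaces_eq_zero (n := p) K hp2
  have h3 := InfinitePlace.card_eq_nrRealPlaces_add_nrComplexPlaces K
  rw [Nat.totient_prime hp.out] at h1
  rw [Units.rank, h3, h2, h1]
  omega

theorem card_option_fin_rank (p : ℕ) [hp : Fact p.Prime] (hp2 : 2 < p) (K : Type*) [Field K]
    [NumberField K] [IsCyclotomicExtension {p} ℚ K] :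
    Fintype.card (Option (Fin (Units.rank K))) = (p - 1) / 2 := by
  rw [Fintype.card_option, Fintype.card_fin, rank_succ_cyclotomic p hp2 K]

end Fermat.Agent.Lib.Kummer
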