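import Mathlib
import Fermat.Agent.Lib.Kummer.Main

set_option autoImplicit false

open Polynomial NumberField

namespace Fermat.Agent.Lib.Kummer

/-- certificate matrix for `p = 11`. -/
def cert11 : Fin 5 → ℕ → ℤ := fun i j =>
  ((![[-5, -3, -4, 2, -1, -5, -3, -4, 2], [1, -4, 0, 5, -5, -4, 2, 3, 0], [-4, -3, 1, -3, -4, -5, 4, 0, 0], [2, 0, -1, 3, 0, -5, 5, -5, 5], [-3, 5, 5, -3, -5, 0, 0, 0, 0]] :
    Fin 5 → List ℤ) i).getD j 0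

theorem char11 : (11 : (ZMod 11)[X]) = 0 := by
  have := CharP.cast_eq_zero (ZMod 11)[X] 11
  exact_mod_cast this

theorem ld11_0 : LD 9 (1 + X : (ZMod 11)[X])
    (-5 - 3 * (X - 1) - 4 * (X - 1) ^ 2 + 2 * (X - 1) ^ 3 - 1 * (X - 1) ^ 4 - 5 * (X - 1) ^ 5 - 3 * (X - 1) ^ 6 - 4 * (X - 1) ^ 7 + 2 * (X - 1) ^ 8) := by
  refine ⟨-2, ?_⟩
  have hd : derivative (1 + X : (ZMod 11)[X]) = 1 := by
    simp only [derivative_add, derivative_one, derivative_X, zero_add]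
  rw [hd]
  linear_combination (1 + 1 * (X - 1) + 1 * (X - 1) ^ 2 + 1 * (X - 1) ^ 5 + 1 * (X - 1) ^ 6 + 1 * (X - 1) ^ 7) * char11

theorem ld11_1 : LD 9 (1 + X + X ^ 2 : (ZMod 11)[X])
    (1 - 4 * (X - 1) + 5 * (X - 1) ^ 3 - 5 * (X - 1) ^ 4 - 4 * (X - 1) ^ 5 + 2 * (X - 1) ^ 6 + 3 * (X - 1) ^ 7) := by
  refine ⟨-3, ?_⟩
  have hd : derivative (1 + X + X ^ 2 : (ZMod 11)[X]) = 1 + 2 * X := by
    simp only [derivative_add, derivative_one, derivative_X, derivative_X_pow, zero_add]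
    simp [map_ofNat]
  rw [hd]
  linear_combination (1 * (X - 1) + 1 * (X - 1) ^ 2 - 1 * (X - 1) ^ 3 + 2 * (X - 1) ^ 5 + 1 * (X - 1) ^ 6 - 1 * (X - 1) ^ 7 - 1 * (X - 1) ^ 8) * char11

theorem ld11_2 : LD 9 (1 + X + X ^ 2 + X ^ 3 : (ZMod 11)[X])
    (-4 - 3 * (X - 1) + 1 * (X - 1) ^ 2 - 3 * (X - 1) ^ 3 - 4 * (X - 1) ^ 4 - 5 * (X - 1) ^ 5 + 4 * (X - 1) ^ 6) := by
  refine ⟨-4, ?_⟩
  have hd : derivative (1 + X + X ^ 2 + X ^ 3 : (ZMod 11)[X]) = 1 + 2 * X + 3 * X ^ 2 := by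
    simp only [derivative_add, derivative_one, derivative_X, derivative_X_pow, zero_add]
    simp [map_ofNat]
  rw [hd]
  linear_combination (2 + 4 * (X - 1) + 3 * (X - 1) ^ 2 + 2 * (X - 1) ^ 3 + 3 * (X - 1) ^ 4 + 5 * (X - 1) ^ 5 + 3 * (X - 1) ^ 6 - 1 * (X - 1) ^ 8) * char11

theorem ld11_3 : LD 9 (1 + X + X ^ 2 + X ^ 3 + X ^ 4 : (ZMod 11)[X])
    (2 - 1 * (X - 1) ^ 2 + 3 * (X - 1) ^ 3 - 5 * (X - 1) ^ 5 + 5 * (X - 1) ^ 6 - 5 * (X - 1) ^ 7 + 5 * (X - 1) ^ 8) := by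
  refine ⟨-20 - 30 * (X - 1) - 20 * (X - 1) ^ 2 - 5 * (X - 1) ^ 3, ?_⟩
  have hd : derivative (1 + X + X ^ 2 + X ^ 3 + X ^ 4 : (ZMod 11)[X]) = 1 + 2 * X + 3 * X ^ 2 + 4 * X ^ 3 := by
    simp only [derivative_add, derivative_one, derivative_X, derivative_X_pow, zero_add]
    simp [map_ofNat]
  rw [hd]
  linear_combination (-1 * (X - 1) ^ 3 - 2 * (X - 1) ^ 4 + 1 * (X - 1) ^ 6 + 2 * (X - 1) ^ 7) * char11

theorem ld11_4 : LD 9 (1 + X + X ^ 2 + X ^ 3 + X ^ 4 + X ^ 5 : (ZMod 11)[X])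
    (-3 + 5 * (X - 1) + 5 * (X - 1) ^ 2 - 3 * (X - 1) ^ 3 - 5 * (X - 1) ^ 4) := by
  refine ⟨5, ?_⟩
  have hd : derivative (1 + X + X ^ 2 + X ^ 3 + X ^ 4 + X ^ 5 : (ZMod 11)[X]) = 1 + 2 * X + 3 * X ^ 2 + 4 * X ^ 3 + 5 * X ^ 4 := by
    simp only [derivative_add, derivative_one, derivative_X, derivative_X_pow, zero_add]
    simp [map_ofNat]
  rw [hd]
  linear_combination (3 + 5 * (X - 1) - 8 * (X - 1) ^ 3 - 7 * (X - 1) ^ 4 + 3 * (X - 1) ^ 5 + 10 * (X - 1) ^ 6 + 8 * (X - 1) ^ 7 + 3 * (X - 1) ^ 8) * char11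

theorem kummer_lemma_eleven (K : Type*) [Field K] [NumberField K]
    [IsCyclotomicExtension {11} ℚ K]
    (u : (𝓞 K)ˣ) (m : ℤ) (h : ((11 : ℕ) : 𝓞 K) ∣ (u : 𝓞 K) - (m : 𝓞 K)) :
    ∃ v : (𝓞 K)ˣ, u = v ^ 11 := by
  have : Fact (Nat.Prime 11) := ⟨by norm_num⟩
  refine kummer_of_cert 11 5 9 (by norm_num) (by norm_num) (by norm_num) K cert11 ?_ ?_ u m h
  · intro i
    fin_cases i
    · have := ld11_0
      simpa [cert11, Finset.sum_range_succ, sub_eq_add_neg, add_assoc] using this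
    · have := ld11_1
      simpa [cert11, Finset.sum_range_succ, sub_eq_add_neg, add_assoc] using this
    · have := ld11_2
      simpa [cert11, Finset.sum_range_succ, sub_eq_add_neg, add_assoc] using this
    · have := ld11_3
      simpa [cert11, Finset.sum_range_succ, sub_eq_add_neg, add_assoc] using this
    · have := ld11_4
      simpa [cert11, Finset.sum_range_succ, sub_eq_add_neg, add_assoc] using this
  · intro n hn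
    have h0 := hn 0 (by norm_num)
    have h1 := hn 1 (by norm_num)
    have h3 := hn 3 (by norm_num)
    have h5 := hn 5 (by norm_num)
    have h7 := hn 7 (by norm_num)
    simp only [cert11, Fin.sum_univ_succ, Fin.sum_univ_zero] at h0 h1 h3 h5 h7
    simp at h0 h1 h3 h5 h7
    obtain ⟨q0, hq0⟩ := h0
    obtain ⟨q1, hq1⟩ := h1
    obtain ⟨q3, hq3⟩ := h3
    obtain ⟨q5, hq5⟩ := h5
    obtain ⟨q7, hq7⟩ := h7
    intro i
    fin_cases i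
    · have h : ((11 : ℕ) : ℤ) ∣ (n 0 : ℤ) :=
        ⟨(-5 * q0 - 3 * q1 - 3 * q5 + 1 * q7) + (-4 * (n 0 : ℤ) - 2 * (n 1 : ℤ) - 4 * (n 2 : ℤ)), by
          push_cast
          linear_combination -5 * hq0 - 3 * hq1 - 3 * hq5 + 1 * hq7⟩
      exact_mod_cast h
    · have h : ((11 : ℕ) : ℤ) ∣ (n 1 : ℤ) :=
        ⟨(-4 * q0 - 4 * q1 + 1 * q3 + 5 * q5 + 5 * q7) + (1 * (n 0 : ℤ) - 1 * (n 1 : ℤ) + 5 * (n 3 : ℤ) + 1 * (n 4 : ℤ)), by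
          push_cast
          linear_combination -4 * hq0 - 4 * hq1 + 1 * hq3 + 5 * hq5 + 5 * hq7⟩
      exact_mod_cast h
    · have h : ((11 : ℕ) : ℤ) ∣ (n 2 : ℤ) :=
        ⟨(4 * q1 + 3 * q3 + 4 * q7) + (2 * (n 0 : ℤ) - 1 * (n 1 : ℤ) + 2 * (n 2 : ℤ) + 1 * (n 3 : ℤ) - 1 * (n 4 : ℤ)), by
          push_cast
          linear_combination 4 * hq1 + 3 * hq3 + 4 * hq7⟩
      exact_mod_cast h
    · have h : ((11 : ℕ) : ℤ) ∣ (n 3 : ℤ) :=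
        ⟨(-5 * q0 + 5 * q3 + 1 * q5 + 2 * q7) + (-2 * (n 0 : ℤ) - 2 * (n 1 : ℤ) + 1 * (n 3 : ℤ)), by
          push_cast
          linear_combination -5 * hq0 + 5 * hq3 + 1 * hq5 + 2 * hq7⟩
      exact_mod_cast h
    · have h : ((11 : ℕ) : ℤ) ∣ (n 4 : ℤ) :=
        ⟨(-4 * q0 + 2 * q1 - 4 * q3 - 4 * q7) + (-2 * (n 0 : ℤ) + 4 * (n 1 : ℤ) - 2 * (n 2 : ℤ) - 3 * (n 4 : ℤ)), by
          push_cast
          linear_combination -4 * hq0 + 2 * hq1 - 4 * hq3 - 4 * hq7⟩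
      exact_mod_cast h

end Fermat.Agent.Lib.Kummer
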