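import Mathlib
import Fermat.Agent.Lib.Kummer.Main

set_option autoImplicit false

open Polynomial NumberField

namespace Fermat.Agent.Lib.Kummer

/-- certificate matrix for `p = 5`. -/
def cert5 : Fin 2 → ℕ → ℤ := fun i j =>
  ((![[-2, 1, 2], [1, -2, 0]] :
    Fin 2 → List ℤ) i).getD j 0

theorem char5 : (5 : (ZMod 5)[X]) = 0 := by
  have := CharP.cast_eq_zero (ZMod 5)[X] 5
  exact_mod_cast this

theorem ld5_0 : LD 3 (1 + X : (ZMod 5)[X])
    (-2 + 1 * (X - 1) + 2 * (X - 1) ^ 2) := by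
  refine ⟨-2, ?_⟩
  have hd : derivative (1 + X : (ZMod 5)[X]) = 1 := by
    simp only [derivative_add, derivative_one, derivative_X, zero_add]
  rw [hd]
  linear_combination (1 - 1 * (X - 1) ^ 2) * char5

theorem ld5_1 : LD 3 (1 + X + X ^ 2 : (ZMod 5)[X])
    (1 - 2 * (X - 1)) := by
  refine ⟨2, ?_⟩
  have hd : derivative (1 + X + X ^ 2 : (ZMod 5)[X]) = 1 + 2 * X := by
    simp only [derivative_add, derivative_one, derivative_X, derivative_X_pow, zero_add]
    simp [map_ofNat]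
  rw [hd]
  linear_combination (1 * (X - 1) + 1 * (X - 1) ^ 2) * char5

theorem kummer_lemma_five (K : Type*) [Field K] [NumberField K]
    [IsCyclotomicExtension {5} ℚ K]
    (u : (𝓞 K)ˣ) (m : ℤ) (h : ((5 : ℕ) : 𝓞 K) ∣ (u : 𝓞 K) - (m : 𝓞 K)) :
    ∃ v : (𝓞 K)ˣ, u = v ^ 5 := by
  have : Fact (Nat.Prime 5) := ⟨by norm_num⟩
  refine kummer_of_cert 5 2 3 (by norm_num) (by norm_num) (by norm_num) K cert5 ?_ ?_ u m h
  · intro i
    fin_cases i
    · have := ld5_0
      simpa [cert5, Finset.sum_range_succ, sub_eq_add_neg, add_assoc] using this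
    · have := ld5_1
      simpa [cert5, Finset.sum_range_succ, sub_eq_add_neg, add_assoc] using this
  · intro n hn
    have h0 := hn 0 (by norm_num)
    have h1 := hn 1 (by norm_num)
    simp only [cert5, Fin.sum_univ_succ, Fin.sum_univ_zero] at h0 h1
    simp at h0 h1
    obtain ⟨q0, hq0⟩ := h0
    obtain ⟨q1, hq1⟩ := h1
    intro i
    fin_cases i
    · have h : ((5 : ℕ) : ℤ) ∣ (n 0 : ℤ) :=
        ⟨(1 * q0 - 2 * q1) + (1 * (n 0 : ℤ) - 1 * (n 1 : ℤ)), by
          push_cast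
          linear_combination 1 * hq0 - 2 * hq1⟩
      exact_mod_cast h
    · have h : ((5 : ℕ) : ℤ) ∣ (n 1 : ℤ) :=
        ⟨(-2 * q0 + 1 * q1) + (-1 * (n 0 : ℤ) + 1 * (n 1 : ℤ)), by
          push_cast
          linear_combination -2 * hq0 + 1 * hq1⟩
      exact_mod_cast h

end Fermat.Agent.Lib.Kummer
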