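import Mathlib.NumberTheory.NumberField.Units.DirichletTheorem
import Mathlib.NumberTheory.NumberField.Cyclotomic.Embeddings

set_option autoImplicit false

namespace Fermat.Agent.Lib.Kummer

open NumberField NumberField.Units NumberField.InfinitePlace

theorem rank_cyclotomic (p : ℕ) [Fact p.Prime] (hp : p ≠ 2) (K : Type*) [Field K] [NumberField K]
    [IsCyclotomicExtension {p} ℚ K] : rank K = (p - 1) / 2 - 1 := by
  have hp2 : 2 < p := lt_of_le_of_ne (Fact.out : p.Prime).two_le (Ne.symm hp)
  have : NeZero p := ⟨(Fact.out : p.Prime).ne_zero⟩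
  dsimp only [rank]
  rw [card_eq_nrRealPlaces_add_nrComplexPlaces,
    IsCyclotomicExtension.Rat.nrRealPlaces_eq_zero (n := p) K hp2, zero_add,
    IsCyclotomicExtension.Rat.nrComplexPlaces_eq_totient_div_two (n := p),
    Nat.totient_prime Fact.out]

theorem exists_finset_closure_units (p : ℕ) [Fact p.Prime] (hp : p ≠ 2) (K : Type*) [Field K]
    [NumberField K] [IsCyclotomicExtension {p} ℚ K] :
    ∃ s : Finset (𝓞 K)ˣ, s.card ≤ (p - 1) / 2 ∧ Subgroup.closure (s : Set (𝓞 K)ˣ) = ⊤ := by
  classical
  have hp2 : 2 < p := lt_of_le_of_ne (Fact.out : p.Prime).two_le (Ne.symm hp)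
  obtain ⟨g, hg⟩ := IsCyclic.exists_generator (α := torsion K)
  refine ⟨insert (g : (𝓞 K)ˣ) (Finset.univ.image (fundSystem K)), ?_, ?_⟩
  · refine (Finset.card_insert_le _ _).trans ?_
    have h1 : (Finset.univ.image (fundSystem K)).card ≤ rank K := by
      simpa using Finset.card_image_le (s := Finset.univ) (f := fundSystem K)
    have h2 := rank_cyclotomic p hp K
    omega
  · rw [eq_top_iff, ← closure_fundSystem_sup_torsion_eq_top K, sup_le_iff]
    constructor
    · apply Subgroup.closure_mono
      rintro _ ⟨i, rfl⟩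
      simp
    · intro x hx
      obtain ⟨n, hn⟩ := Subgroup.mem_zpowers_iff.mp (hg ⟨x, hx⟩)
      have hx' : x = (g : (𝓞 K)ˣ) ^ n := by
        have := congrArg (Subtype.val) hn
        simpa using this.symm
      rw [hx']
      exact Subgroup.zpow_mem _ (Subgroup.subset_closure (by simp)) _

end Fermat.Agent.Lib.Kummer
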